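/-
GATE-J / J1 VAL-CORE (helper45): the concrete reduction datum `RedData` of `GJ/J1/Defs.lean`.

`L` a field, `A` a valuation subring, `k` its residue field, `F` an intermediate field of
`L((q)) / L` with the *Gauss fraction property*: every nonzero element of `F` is `c · a / b` with
`c ∈ Lˣ` and `a, b ∈ A((q)) ∩ F` of nonzero coefficientwise reduction (for the modular function
fields this is `GU.gaussFrac`, helper42).  Then

* `Rw` := `{a / b : a, b ∈ A((q)) ∩ F, b~ ≠ 0}` is a valuation subring of `F`,
* `redL : Rw →+* k((q))`, `a / b ↦ a~ / b~` is a ring hom (coefficientwise reduction on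
  `A((q)) ∩ F`), its range `Fres` is an intermediate field of `k((q)) / k`,
* `redData : RedData L F k Fres`.
-/
import Fermat.Agent.GJ.J1.Defs
import Fermat.Agent.GJ.GU.GaussFrac
import Fermat.Prelude.Thm_ModularCurve_coeff_jqModC_neg_one

set_option autoImplicit false

noncomputable section

namespace Fermat.Agent.GJ.J1.Val

open HahnSeries ModularCurve

section Generic

variable {L : Type*} [Field L] (A : ValuationSubring L)
  (F : IntermediateField L (LaurentSeries L))

/-- coefficientwise embedding `A((q)) → L((q))` -/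
abbrev emb : LaurentSeries A →+* LaurentSeries L := coeffMap A.subtype

/-- coefficientwise reduction `A((q)) → k((q))` -/
abbrev rd : LaurentSeries A →+* LaurentSeries (IsLocalRing.ResidueField A) :=
  coeffMap (IsLocalRing.residue A)

theorem emb_injective : Function.Injective (emb A) := by
  intro x y h
  ext n
  have := congrArg (fun z : LaurentSeries L => z.coeff n) h
  simpa using this

/-- the Gauss fraction property of `F` -/
def HasGaussFrac : Prop :=
  ∀ u : LaurentSeries L, u ∈ F → u ≠ 0 →
    ∃ (c : L) (a b : LaurentSeries A), c ≠ 0 ∧ emb A a ∈ F ∧ emb A b ∈ F ∧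
      rd A a ≠ 0 ∧ rd A b ≠ 0 ∧ u * emb A b = HahnSeries.single 0 c * emb A a

/-- `x = a / b` with `a, b ∈ A((q)) ∩ F`, `b~ ≠ 0` -/
def IsFrac (x : LaurentSeries L) (a b : LaurentSeries A) : Prop :=
  emb A a ∈ F ∧ emb A b ∈ F ∧ rd A b ≠ 0 ∧ x * emb A b = emb A a

variable {A F}

theorem single_mem (c : L) : (HahnSeries.single 0 c : LaurentSeries L) ∈ F := by
  rw [← algebraMap_laurentSeries_eq_single]
  exact F.algebraMap_mem c

theorem emb_single (c : A) :
    emb A (HahnSeries.single 0 c) = HahnSeries.single 0 (c : L) := by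
  rw [emb, coeffMap_single]; rfl

theorem rd_single (c : A) :
    rd A (HahnSeries.single 0 c) = HahnSeries.single 0 (IsLocalRing.residue A c) := by
  rw [rd, coeffMap_single]

theorem IsFrac.zero : IsFrac A F 0 0 1 := by
  refine ⟨by rw [map_zero]; exact zero_mem F, by rw [map_one]; exact one_mem F, ?_, ?_⟩
  · rw [map_one]; exact one_ne_zero
  · rw [map_zero, zero_mul]

theorem IsFrac.one : IsFrac A F 1 1 1 := by
  refine ⟨by rw [map_one]; exact one_mem F, by rw [map_one]; exact one_mem F, ?_, ?_⟩
  · rw [map_one]; exact one_ne_zero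
  · rw [map_one, one_mul]

theorem IsFrac.add {x y : LaurentSeries L} {a b a' b' : LaurentSeries A}
    (h : IsFrac A F x a b) (h' : IsFrac A F y a' b') :
    IsFrac A F (x + y) (a * b' + a' * b) (b * b') := by
  obtain ⟨ha, hb, hb0, hx⟩ := h
  obtain ⟨ha', hb', hb0', hy⟩ := h'
  refine ⟨?_, ?_, ?_, ?_⟩
  · rw [map_add, map_mul, map_mul]
    exact add_mem (mul_mem ha hb') (mul_mem ha' hb)
  · rw [map_mul]; exact mul_mem hb hb'
  · rw [map_mul]; exact mul_ne_zero hb0 hb0'
  · rw [map_add, map_mul, map_mul, map_mul, ← hx, ← hy]; ring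

theorem IsFrac.mul {x y : LaurentSeries L} {a b a' b' : LaurentSeries A}
    (h : IsFrac A F x a b) (h' : IsFrac A F y a' b') :
    IsFrac A F (x * y) (a * a') (b * b') := by
  obtain ⟨ha, hb, hb0, hx⟩ := h
  obtain ⟨ha', hb', hb0', hy⟩ := h'
  refine ⟨?_, ?_, ?_, ?_⟩
  · rw [map_mul]; exact mul_mem ha ha'
  · rw [map_mul]; exact mul_mem hb hb'
  · rw [map_mul]; exact mul_ne_zero hb0 hb0'
  · rw [map_mul, map_mul, ← hx, ← hy]; ring

theorem IsFrac.neg {x : LaurentSeries L} {a b : LaurentSeries A}
    (h : IsFrac A F x a b) : IsFrac A F (-x) (-a) b := by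
  obtain ⟨ha, hb, hb0, hx⟩ := h
  refine ⟨by rw [map_neg]; exact neg_mem ha, hb, hb0, ?_⟩
  rw [map_neg, ← hx]; ring

/-- an element of `A((q)) ∩ F` is the fraction `a / 1` -/
theorem IsFrac.of_int {a : LaurentSeries A} (ha : emb A a ∈ F) : IsFrac A F (emb A a) a 1 := by
  refine ⟨ha, by rw [map_one]; exact one_mem F, ?_, ?_⟩
  · rw [map_one]; exact one_ne_zero
  · rw [map_one, mul_one]

/-- the inverse of a fraction with `a~ ≠ 0` -/
theorem IsFrac.inv {x : LaurentSeries L} {a b : LaurentSeries A}
    (h : IsFrac A F x a b) (ha0 : rd A a ≠ 0) : IsFrac A F x⁻¹ b a := by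
  obtain ⟨ha, hb, hb0, hx⟩ := h
  have hea : emb A a ≠ 0 := by
    intro h0
    apply ha0
    have : a = 0 := emb_injective A (by rw [h0, map_zero])
    rw [this, map_zero]
  have hx0 : x ≠ 0 := by
    rintro rfl
    rw [zero_mul] at hx
    exact hea hx.symm
  refine ⟨hb, ha, ha0, ?_⟩
  rw [← hx, ← mul_assoc, inv_mul_cancel₀ hx0, one_mul]

/-- two representations of the same element have the same reduced quotient -/
theorem IsFrac.rd_div_eq {x : LaurentSeries L} {a b a' b' : LaurentSeries A}
    (h : IsFrac A F x a b) (h' : IsFrac A F x a' b') :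
    rd A a / rd A b = rd A a' / rd A b' := by
  obtain ⟨-, -, hb0, hx⟩ := h
  obtain ⟨-, -, hb0', hx'⟩ := h'
  have h1 : emb A (a * b') = emb A (a' * b) := by
    rw [map_mul, map_mul, ← hx, ← hx']; ring
  have h2 : a * b' = a' * b := emb_injective A h1
  have h3 : rd A a * rd A b' = rd A a' * rd A b := by
    rw [← map_mul, ← map_mul, h2]
  rw [div_eq_div_iff hb0 hb0', h3]

variable (A F)

/-- **The Gauss valuation ring** of `F`. -/
def Rw (hGF : HasGaussFrac A F) : ValuationSubring F where
  carrier := {x | ∃ a b : LaurentSeries A, IsFrac A F (x : LaurentSeries L) a b}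
  mul_mem' := by
    rintro x y ⟨a, b, h⟩ ⟨a', b', h'⟩
    exact ⟨a * a', b * b', by simpa using h.mul h'⟩
  one_mem' := ⟨1, 1, by simpa using IsFrac.one⟩
  add_mem' := by
    rintro x y ⟨a, b, h⟩ ⟨a', b', h'⟩
    exact ⟨a * b' + a' * b, b * b', by simpa using h.add h'⟩
  zero_mem' := ⟨0, 1, by simpa using IsFrac.zero⟩
  neg_mem' := by
    rintro x ⟨a, b, h⟩
    exact ⟨-a, b, by simpa using h.neg⟩
  mem_or_inv_mem' := by
    intro x
    by_cases hx0 : x = 0
    · left; subst hx0; exact ⟨0, 1, by simpa using IsFrac.zero⟩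
    have hxL : (x : LaurentSeries L) ≠ 0 := fun h => hx0 (Subtype.ext h)
    obtain ⟨c, a, b, hc, ha, hb, ha0, hb0, hxb⟩ := hGF x x.2 hxL
    rcases A.mem_or_inv_mem c with hcA | hcA
    · left
      refine ⟨HahnSeries.single 0 ⟨c, hcA⟩ * a, b, ?_, hb, hb0, ?_⟩
      · rw [map_mul, emb_single]
        exact mul_mem (single_mem c) ha
      · rw [map_mul, emb_single]; exact hxb
    · right
      have hC : (HahnSeries.single 0 c : LaurentSeries L) ≠ 0 :=
        HahnSeries.single_ne_zero hc
      refine ⟨HahnSeries.single 0 ⟨c⁻¹, hcA⟩ * b, a, ?_, ha, ha0, ?_⟩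
      · rw [map_mul, emb_single]
        exact mul_mem (single_mem c⁻¹) hb
      · rw [map_mul, emb_single]
        have h1 : (HahnSeries.single 0 c⁻¹ : LaurentSeries L) * HahnSeries.single 0 c = 1 := by
          rw [HahnSeries.single_mul_single, zero_add, inv_mul_cancel₀ hc]; rfl
        have h2 : emb A b = (x : LaurentSeries L)⁻¹ * (HahnSeries.single 0 c * emb A a) := by
          rw [← hxb, ← mul_assoc, inv_mul_cancel₀ hxL, one_mul]
        show ((x⁻¹ : F) : LaurentSeries L) * emb A a = _
        rw [h2]
        push_cast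
        calc (x : LaurentSeries L)⁻¹ * emb A a
            = (HahnSeries.single 0 c⁻¹ * HahnSeries.single 0 c) *
                ((x : LaurentSeries L)⁻¹ * emb A a) := by rw [h1, one_mul]
          _ = _ := by ring


variable (hGF : HasGaussFrac A F)

theorem mem_Rw_iff {x : F} :
    x ∈ Rw A F hGF ↔ ∃ a b : LaurentSeries A, IsFrac A F (x : LaurentSeries L) a b := Iff.rfl

/-- the reduction of an element of `Rw`, as a Laurent series over the residue field -/
def redFun (x : Rw A F hGF) : LaurentSeries (IsLocalRing.ResidueField A) :=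
  rd A (Classical.choose x.2) / rd A (Classical.choose (Classical.choose_spec x.2))

variable {A F hGF}

theorem redFun_eq {x : Rw A F hGF} {a b : LaurentSeries A}
    (h : IsFrac A F ((x : F) : LaurentSeries L) a b) : redFun A F hGF x = rd A a / rd A b :=
  (Classical.choose_spec (Classical.choose_spec x.2)).rd_div_eq h

variable (A F hGF)

/-- **the reduction map** `Rw → k((q))`, `a / b ↦ a~ / b~` -/
def redL : Rw A F hGF →+* LaurentSeries (IsLocalRing.ResidueField A) where
  toFun := redFun A F hGF
  map_one' := by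
    have h : IsFrac A F (((1 : Rw A F hGF) : F) : LaurentSeries L) 1 1 := by
      simpa using IsFrac.one
    rw [redFun_eq h, map_one, div_one]
  map_mul' := by
    intro x y
    obtain ⟨a, b, h⟩ := x.2
    obtain ⟨a', b', h'⟩ := y.2
    have hm : IsFrac A F (((x * y : Rw A F hGF) : F) : LaurentSeries L) (a * a') (b * b') := by
      simpa using h.mul h'
    rw [redFun_eq hm, redFun_eq h, redFun_eq h', map_mul, map_mul, mul_div_mul_comm]
  map_zero' := by
    have h : IsFrac A F (((0 : Rw A F hGF) : F) : LaurentSeries L) 0 1 := by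
      simpa using IsFrac.zero
    rw [redFun_eq h, map_zero, zero_div]
  map_add' := by
    intro x y
    obtain ⟨a, b, h⟩ := x.2
    obtain ⟨a', b', h'⟩ := y.2
    have hm : IsFrac A F (((x + y : Rw A F hGF) : F) : LaurentSeries L)
        (a * b' + a' * b) (b * b') := by
      simpa using h.add h'
    rw [redFun_eq hm, redFun_eq h, redFun_eq h', map_add, map_mul, map_mul, map_mul,
      div_add_div _ _ h.2.2.1 h'.2.2.1]
    congr 1
    ring

variable {A F hGF}

theorem redL_eq {x : Rw A F hGF} {a b : LaurentSeries A}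
    (h : IsFrac A F ((x : F) : LaurentSeries L) a b) : redL A F hGF x = rd A a / rd A b :=
  redFun_eq h

/-- the defining relation of the reduction -/
theorem redL_mul_rd {x : Rw A F hGF} {a b : LaurentSeries A}
    (h : IsFrac A F ((x : F) : LaurentSeries L) a b) : redL A F hGF x * rd A b = rd A a := by
  rw [redL_eq h, div_mul_cancel₀ _ h.2.2.1]

/-- elements of `A((q)) ∩ F` lie in `Rw` -/
theorem int_mem_Rw {a : LaurentSeries A} (ha : emb A a ∈ F) :
    (⟨emb A a, ha⟩ : F) ∈ Rw A F hGF := ⟨a, 1, IsFrac.of_int ha⟩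

/-- on `A((q)) ∩ F` the reduction is the COEFFICIENTWISE reduction -/
theorem redL_int {a : LaurentSeries A} (ha : emb A a ∈ F) :
    redL A F hGF ⟨⟨emb A a, ha⟩, int_mem_Rw ha⟩ = rd A a := by
  have h : IsFrac A F (((⟨⟨emb A a, ha⟩, int_mem_Rw ha⟩ : Rw A F hGF) : F) : LaurentSeries L) a 1 :=
    IsFrac.of_int ha
  rw [redL_eq h, map_one, div_one]

/-- if the reduction is nonzero, the inverse lies in `Rw` -/
theorem inv_mem_of_redL_ne_zero {x : Rw A F hGF} (hx : redL A F hGF x ≠ 0) :
    ((x : F))⁻¹ ∈ Rw A F hGF := by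
  obtain ⟨a, b, h⟩ := x.2
  have ha0 : rd A a ≠ 0 := by
    intro h0
    apply hx
    rw [redL_eq h, h0, zero_div]
  exact ⟨b, a, by simpa using h.inv ha0⟩

theorem redL_inv {x : Rw A F hGF} (hx : redL A F hGF x ≠ 0) :
    redL A F hGF ⟨((x : F))⁻¹, inv_mem_of_redL_ne_zero hx⟩ = (redL A F hGF x)⁻¹ := by
  obtain ⟨a, b, h⟩ := x.2
  have ha0 : rd A a ≠ 0 := by
    intro h0
    apply hx
    rw [redL_eq h, h0, zero_div]
  have hi : IsFrac A F
      (((⟨((x : F))⁻¹, inv_mem_of_redL_ne_zero hx⟩ : Rw A F hGF) : F) : LaurentSeries L) b a := by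
    simpa using h.inv ha0
  rw [redL_eq hi, redL_eq h, inv_div]

theorem redL_eq_zero_iff (x : Rw A F hGF) :
    redL A F hGF x = 0 ↔ x ∈ IsLocalRing.maximalIdeal (Rw A F hGF) := by
  rw [IsLocalRing.mem_maximalIdeal, mem_nonunits_iff]
  constructor
  · intro h0 hu
    obtain ⟨y, hy⟩ := hu.exists_right_inv
    have := congrArg (redL A F hGF) hy
    rw [map_mul, h0, zero_mul, map_one] at this
    exact zero_ne_one this
  · intro hu
    by_contra h0
    apply hu
    have hx0 : (x : F) ≠ 0 := by
      intro hx
      apply h0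
      have : x = 0 := Subtype.ext hx
      rw [this, map_zero]
    refine IsUnit.of_mul_eq_one (⟨((x : F))⁻¹, inv_mem_of_redL_ne_zero h0⟩ : Rw A F hGF) ?_
    apply Subtype.ext
    show (x : F) * ((x : F))⁻¹ = 1
    exact mul_inv_cancel₀ hx0

theorem algebraMap_mem_Rw_iff (c : L) : algebraMap L F c ∈ Rw A F hGF ↔ c ∈ A := by
  have hcoe : ((algebraMap L F c : F) : LaurentSeries L) = HahnSeries.single 0 c := by
    rw [← algebraMap_laurentSeries_eq_single]; rfl
  constructor
  · rintro ⟨a, b, -, -, hb0, hx⟩
    rw [hcoe] at hx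
    -- some coefficient of `b` is a unit of `A`
    have hex : ∃ n : ℤ, IsLocalRing.residue A (b.coeff n) ≠ 0 := by
      by_contra hall
      apply hb0
      ext n
      have hn : IsLocalRing.residue A (b.coeff n) = 0 := by
        by_contra hne
        exact hall ⟨n, hne⟩
      simp [hn]
    obtain ⟨n, hn⟩ := hex
    have hunit : IsUnit (b.coeff n) := by
      by_contra hnu
      exact hn ((IsLocalRing.residue_eq_zero_iff _).mpr ((IsLocalRing.mem_maximalIdeal _).mpr hnu))
    obtain ⟨v, hv⟩ := hunit.exists_right_inv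
    have hcn : c * ((b.coeff n : A) : L) = ((a.coeff n : A) : L) := by
      have := congrArg (fun z : LaurentSeries L => z.coeff n) hx
      simpa [HahnSeries.coeff_single_zero_mul] using this
    have hv' : ((b.coeff n : A) : L) * (v : L) = 1 := by
      have := congrArg (fun z : A => (z : L)) hv
      simpa using this
    have : c = ((a.coeff n : A) : L) * (v : L) := by
      rw [← hcn, mul_assoc, hv', mul_one]
    rw [this]
    exact A.mul_mem _ _ (a.coeff n).2 v.2
  · intro hc
    refine ⟨HahnSeries.single 0 ⟨c, hc⟩, 1, ?_⟩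
    rw [hcoe]
    have := IsFrac.of_int (A := A) (F := F) (a := HahnSeries.single 0 ⟨c, hc⟩)
      (by rw [emb_single]; exact single_mem c)
    rwa [emb_single] at this

theorem redL_algebraMap (c : A) (h : algebraMap L F (c : L) ∈ Rw A F hGF) :
    redL A F hGF ⟨algebraMap L F (c : L), h⟩ =
      algebraMap (IsLocalRing.ResidueField A) (LaurentSeries (IsLocalRing.ResidueField A))
        (IsLocalRing.residue A c) := by
  have hcoe : ((algebraMap L F (c : L) : F) : LaurentSeries L) = emb A (HahnSeries.single 0 c) := by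
    rw [emb_single, ← algebraMap_laurentSeries_eq_single]; rfl
  have hi : IsFrac A F (((⟨algebraMap L F (c : L), h⟩ : Rw A F hGF) : F) : LaurentSeries L)
      (HahnSeries.single 0 c) 1 := by
    show IsFrac A F ((algebraMap L F (c : L) : F) : LaurentSeries L) _ _
    rw [hcoe]
    exact IsFrac.of_int (by rw [emb_single]; exact single_mem (c : L))
  rw [redL_eq hi, map_one, div_one, rd_single, algebraMap_laurentSeries_eq_single]

variable (A F hGF)

/-- **the residue field** of the Gauss valuation, inside `k((q))` -/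
def Fres : IntermediateField (IsLocalRing.ResidueField A)
    (LaurentSeries (IsLocalRing.ResidueField A)) where
  toSubsemiring := (redL A F hGF).rangeS
  algebraMap_mem' := by
    intro r
    obtain ⟨c, rfl⟩ := IsLocalRing.residue_surjective r
    have h : algebraMap L F (c : L) ∈ Rw A F hGF := (algebraMap_mem_Rw_iff (c : L)).mpr c.2
    exact ⟨⟨algebraMap L F (c : L), h⟩, redL_algebraMap c h⟩
  inv_mem' := by
    rintro y ⟨x, rfl⟩
    by_cases h0 : redL A F hGF x = 0
    · rw [h0, inv_zero]; exact ⟨0, map_zero _⟩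
    · exact ⟨⟨((x : F))⁻¹, inv_mem_of_redL_ne_zero h0⟩, redL_inv h0⟩

set_option synthInstance.maxHeartbeats 400000 in
/-- shortcut instance (the generic search through `IntermediateField` is slow here) -/
instance Fres.instAlgebra : Algebra (IsLocalRing.ResidueField A) (Fres A F hGF) := inferInstance

/-- the inclusion of the residue field into `k((q))` as a ring hom -/
def Fres.incl : Fres A F hGF →+* LaurentSeries (IsLocalRing.ResidueField A) :=
  (Fres A F hGF).toSubfield.subtype

theorem Fres.incl_apply (y : Fres A F hGF) :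
    Fres.incl A F hGF y = (y : LaurentSeries (IsLocalRing.ResidueField A)) := rfl

theorem Fres.incl_comp_algebraMap :
    (Fres.incl A F hGF).comp (algebraMap (IsLocalRing.ResidueField A) (Fres A F hGF)) =
      algebraMap (IsLocalRing.ResidueField A) (LaurentSeries (IsLocalRing.ResidueField A)) :=
  RingHom.ext fun _ => rfl

/-- transcendence can be checked in `k((q))` -/
theorem Fres.transcendental_of_coe {y : Fres A F hGF}
    (h : Transcendental (IsLocalRing.ResidueField A)
      (y : LaurentSeries (IsLocalRing.ResidueField A))) :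
    Transcendental (IsLocalRing.ResidueField A) y := by
  rintro ⟨p, hp0, hp⟩
  apply h
  refine ⟨p, hp0, ?_⟩
  have h1 := congrArg (Fres.incl A F hGF) hp
  rw [Polynomial.aeval_def, Polynomial.hom_eval₂, Fres.incl_comp_algebraMap, map_zero] at h1
  rw [Polynomial.aeval_def]
  exact h1

theorem mem_Fres_iff {y : LaurentSeries (IsLocalRing.ResidueField A)} :
    y ∈ Fres A F hGF ↔ ∃ x : Rw A F hGF, redL A F hGF x = y := Iff.rfl

/-- the reduction map onto the residue field -/
def red : Rw A F hGF →+* Fres A F hGF :=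
  (redL A F hGF).codRestrict (Fres A F hGF).toSubalgebra.toSubsemiring
    (fun x => ⟨x, rfl⟩)

@[simp] theorem coe_red (x : Rw A F hGF) :
    ((red A F hGF x : Fres A F hGF) : LaurentSeries (IsLocalRing.ResidueField A)) =
      redL A F hGF x := rfl

theorem red_surjective : Function.Surjective (red A F hGF) := by
  rintro ⟨y, x, rfl⟩
  exact ⟨x, Subtype.ext rfl⟩

/-- **The reduction datum** of `GJ/J1/Defs.lean` for the Gauss valuation of `F`. -/
def redData : RedData L F (IsLocalRing.ResidueField A) (Fres A F hGF) where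
  Rw := Rw A F hGF
  A := A
  mem_A_iff := fun a => (algebraMap_mem_Rw_iff a).symm
  red := red A F hGF
  red_surjective := red_surjective A F hGF
  red_eq_zero_iff := fun x => by
    rw [← redL_eq_zero_iff]
    constructor
    · intro h
      have := congrArg (fun z : Fres A F hGF => (z : LaurentSeries (IsLocalRing.ResidueField A))) h
      simpa using this
    · intro h
      exact Subtype.ext (by simpa using h)
  res := IsLocalRing.residue A
  res_surjective := IsLocalRing.residue_surjective
  red_algebraMap := fun a => Subtype.ext (by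
    rw [coe_red, redL_algebraMap]
    rfl)

/-- `Rw` is unramified over `A`: every nonzero element is a constant times a unit. -/
theorem unramified (x : F) (hx : x ≠ 0) :
    ∃ c : L, c ≠ 0 ∧ x / algebraMap L F c ∈ Rw A F hGF ∧
      (x / algebraMap L F c)⁻¹ ∈ Rw A F hGF := by
  have hxL : (x : LaurentSeries L) ≠ 0 := fun h => hx (Subtype.ext h)
  obtain ⟨c, a, b, hc, ha, hb, ha0, hb0, hxb⟩ := hGF x x.2 hxL
  have hC : (HahnSeries.single 0 c : LaurentSeries L) ≠ 0 := HahnSeries.single_ne_zero hc
  have hcoe : ((x / algebraMap L F c : F) : LaurentSeries L) =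
      (x : LaurentSeries L) / HahnSeries.single 0 c := by
    push_cast
    rw [← algebraMap_laurentSeries_eq_single]
  have hfrac : IsFrac A F ((x / algebraMap L F c : F) : LaurentSeries L) a b := by
    refine ⟨ha, hb, hb0, ?_⟩
    rw [hcoe, div_mul_eq_mul_div, hxb, mul_div_assoc, mul_comm, div_mul_cancel₀ _ hC]
  refine ⟨c, hc, ⟨a, b, hfrac⟩, ⟨b, a, ?_⟩⟩
  simpa using hfrac.inv ha0


/-- a Gauss chart from an element of `A((q)) ∩ F` whose coefficientwise reduction is
transcendental over the residue field -/
theorem isGaussChart_of_int {a : LaurentSeries A} (ha : emb A a ∈ F)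
    (htr : Transcendental (IsLocalRing.ResidueField A) (rd A a)) :
    (redData A F hGF).IsGaussChart (⟨emb A a, ha⟩ : F) := by
  refine ⟨int_mem_Rw (hGF := hGF) ha, ?_⟩
  apply Fres.transcendental_of_coe
  have h1 : (((redData A F hGF).red ⟨⟨emb A a, ha⟩, int_mem_Rw (hGF := hGF) ha⟩ : Fres A F hGF) :
      LaurentSeries (IsLocalRing.ResidueField A)) = rd A a := redL_int ha
  rw [h1]
  exact htr

end Generic

/-- a Laurent series over a field with a pole at `q = 0` is transcendental over the constants -/
theorem transcendental_of_order_neg {κ : Type*} [Field κ] (y : LaurentSeries κ)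
    (hy : y.order < 0) : Transcendental κ y := by
  have hy0 : y ≠ 0 := by
    rintro rfl
    simp at hy
  intro halg
  obtain ⟨P, hPm, hP⟩ := halg.isIntegral
  rw [← Polynomial.aeval_def, Polynomial.aeval_eq_sum_range, Finset.sum_range_succ] at hP
  simp only [Algebra.smul_def] at hP
  set d := P.natDegree with hd
  have hlead : P.coeff d = 1 := hPm.coeff_natDegree
  rw [hlead, map_one, one_mul] at hP
  have hc := congrArg (fun z : LaurentSeries κ => z.coeff ((d : ℤ) * y.order)) hP
  simp only [HahnSeries.coeff_add, HahnSeries.coeff_zero, HahnSeries.coeff_sum] at hc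
  have h1 : ∀ i ∈ Finset.range d,
      (algebraMap κ (LaurentSeries κ) (P.coeff i) * y ^ i).coeff ((d : ℤ) * y.order) = 0 := by
    intro i hi
    rw [algebraMap_laurentSeries_eq_single, HahnSeries.coeff_single_zero_mul]
    have hlt : ((d : ℤ) * y.order) < (y ^ i).order := by
      rw [HahnSeries.order_pow, nsmul_eq_mul]
      have hid : (i : ℤ) < d := by exact_mod_cast Finset.mem_range.mp hi
      nlinarith
    rw [HahnSeries.coeff_eq_zero_of_lt_order hlt, mul_zero]
  rw [Finset.sum_eq_zero h1, zero_add] at hc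
  have h2 : (y ^ d).coeff ((d : ℤ) * y.order) ≠ 0 := by
    have h3 : ((d : ℤ) * y.order) = (y ^ d).order := by
      rw [HahnSeries.order_pow, nsmul_eq_mul]
    rw [h3]
    exact fun h => pow_ne_zero d hy0 (HahnSeries.coeff_order_eq_zero.mp h)
  exact h2 hc


theorem order_neg_of_coeff_ne_zero {κ : Type*} [Field κ] {y : LaurentSeries κ} {n : ℤ}
    (hn : n < 0) (h : y.coeff n ≠ 0) : y.order < 0 :=
  lt_of_le_of_lt (HahnSeries.order_le_of_coeff_ne_zero h) hn

/-- `j` is transcendental over any field of constants -/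
theorem transcendental_jqModC (κ : Type*) [Field κ] : Transcendental κ (jqModC κ) :=
  transcendental_of_order_neg _ (order_neg_of_coeff_ne_zero (n := -1) (by norm_num)
    (by rw [ModularCurve.coeff_jqModC_neg_one]; exact one_ne_zero))

section Qbar

variable (N : ℕ) [NeZero N] (A : ValuationSubring (AlgebraicClosure ℚ))

/-- the modular function field over `ℚ̄` has the Gauss fraction property (helper42) -/
theorem hasGaussFrac_bar : HasGaussFrac A (modularFunctionFieldBar N) := by
  intro u hu hu0
  obtain ⟨c, a, b, hc, ha, hb, ha0, hb0, h⟩ := GU.gaussFrac N A u hu hu0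
  exact ⟨c, a, b, hc, ha, hb, ha0, hb0, h⟩

/-- the Gauss valuation ring of `ℚ̄(X₀(N))` attached to `A` -/
abbrev RwBar : ValuationSubring (modularFunctionFieldBar N) :=
  Rw A (modularFunctionFieldBar N) (hasGaussFrac_bar N A)

/-- the residue field of the Gauss valuation, inside `k((q))` -/
abbrev FresBar : IntermediateField (IsLocalRing.ResidueField A)
    (LaurentSeries (IsLocalRing.ResidueField A)) :=
  Fres A (modularFunctionFieldBar N) (hasGaussFrac_bar N A)

/-- **the reduction datum of `ℚ̄(X₀(N))`** at a valuation subring `A` of `ℚ̄` -/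
abbrev redDataBar : RedData (AlgebraicClosure ℚ) (modularFunctionFieldBar N)
    (IsLocalRing.ResidueField A) (FresBar N A) :=
  redData A (modularFunctionFieldBar N) (hasGaussFrac_bar N A)

omit [NeZero N] in
/-- the generators `j(q^d)` over `A` lie in the function field -/
theorem emb_gen_mem {d : ℕ} [NeZero d] (hd : d ∣ N) :
    emb A (qExpand A d (jqModC A)) ∈ modularFunctionFieldBar N := by
  rw [emb, coeffMap_qExpand, coeffMap_jqModC]
  have h1 : qExpand (AlgebraicClosure ℚ) d (jqModC (AlgebraicClosure ℚ)) =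
      coeffEmb (AlgebraicClosure ℚ) (qExpand ℚ d jq) := by
    rw [coeffEmb, coeffMap_qExpand, ← jqModC_rat, coeffMap_jqModC]
  rw [h1]
  exact coeffEmb_mem_laurentBaseChange _ (jqd_mem_full N hd)

/-- the function field `k(j(q^d) : d ∣ N)` over the residue field is contained in the residue
field of the Gauss valuation -/
theorem full_le_FresBar :
    modularFunctionFieldFullC (IsLocalRing.ResidueField A) N ≤ FresBar N A := by
  unfold modularFunctionFieldFullC
  rw [IntermediateField.adjoin_le_iff]
  rintro x ⟨d, hne, hd, rfl⟩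
  refine ⟨⟨⟨_, emb_gen_mem N A hd⟩, int_mem_Rw (emb_gen_mem N A hd)⟩, ?_⟩
  rw [redL_int, rd, coeffMap_qExpand, coeffMap_jqModC]

/-- `j` is a Gauss chart -/
theorem isGaussChart_j :
    (redDataBar N A).IsGaussChart
      (⟨emb A (jqModC A), by
        have := emb_gen_mem N A (one_dvd N)
        rwa [qExpand_one_apply] at this⟩ : modularFunctionFieldBar N) := by
  apply isGaussChart_of_int
  rw [rd, coeffMap_jqModC]
  exact transcendental_jqModC _

end Qbar

end Fermat.Agent.GJ.J1.Val
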