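/-
GATE-J / J1 (C5) (helper45): the residue field of a valuation subring lying over the prime `ℓ`
has characteristic `ℓ`.  (Light-import copy of the statement `Kum.charP_residueField`.)
-/
import Mathlib
import Fermat.Prelude.Def_FLTPrelim_Ramification

set_option autoImplicit false

namespace Fermat.Agent.GJ.J1.Val

variable {L : Type*} [Field L] (A : ValuationSubring L)

/-- `ℓ` vanishes in the residue field of a valuation subring lying over `ℓ` -/
theorem residue_natCast_eq_zero {ℓ : ℕ} (hA : A.LiesOverPrime ℓ) :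
    ((ℓ : ℕ) : IsLocalRing.ResidueField A) = 0 := by
  have h0 : ((ℓ : A) : L) ∈ A.nonunits := by
    have : ((ℓ : A) : L) = (ℓ : L) := by simp
    rw [this]; exact hA
  rw [ValuationSubring.mem_nonunits_iff_exists_mem_maximalIdeal] at h0
  obtain ⟨hmem, hmax⟩ := h0
  have h1 : IsLocalRing.residue A (ℓ : A) = 0 := (IsLocalRing.residue_eq_zero_iff _).mpr hmax
  rwa [map_natCast] at h1

/-- **the residue field of a valuation subring over `ℓ` has characteristic `ℓ`** -/
theorem charP_residue {ℓ : ℕ} (hℓ : ℓ.Prime) (hA : A.LiesOverPrime ℓ) :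
    CharP (IsLocalRing.ResidueField A) ℓ := by
  have h2 := CharP.ringChar_of_prime_eq_zero hℓ (residue_natCast_eq_zero A hA)
  have h3 : CharP (IsLocalRing.ResidueField A) (ringChar (IsLocalRing.ResidueField A)) :=
    ringChar.charP _
  rwa [h2] at h3

/-- integers prime to `ℓ` stay nonzero in the residue field -/
theorem residue_intCast_ne_zero {ℓ : ℕ} (hℓ : ℓ.Prime) (hA : A.LiesOverPrime ℓ) {n : ℤ}
    (hn : ¬ (ℓ : ℤ) ∣ n) : ((n : ℤ) : IsLocalRing.ResidueField A) ≠ 0 := by
  haveI := charP_residue A hℓ hA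
  intro h0
  exact hn ((CharP.intCast_eq_zero_iff (IsLocalRing.ResidueField A) ℓ n).mp h0)

/-- `m` prime to `ℓ` is invertible in the residue field (shape `(m : k) ≠ 0`) -/
theorem residue_natCast_ne_zero {ℓ : ℕ} (hℓ : ℓ.Prime) (hA : A.LiesOverPrime ℓ) {m : ℕ}
    (hm : ¬ ℓ ∣ m) : ((m : ℕ) : IsLocalRing.ResidueField A) ≠ 0 := by
  haveI := charP_residue A hℓ hA
  intro h0
  exact hm ((CharP.cast_eq_zero_iff (IsLocalRing.ResidueField A) ℓ m).mp h0)

end Fermat.Agent.GJ.J1.Val
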