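/-
GATE-J / J1 M-DEG-EXPORT (helper45): the `A`-level export of degree preservation onto the concrete
reduction datum `redData` of `GaussRedData.lean`.

* `mem_Rw_of_frac`, `redL_mul_rd_of_frac` : an element `x ∈ F` with `x · h = g`, `g, h ∈ A((q))`
  ARBITRARY (not required to lie in `F`), `h~ ≠ 0`, lies in `Rw` and `red x · h~ = g~`.
* `linearIndependent_Fres` : linear independence over `k(τ)` may be tested in `k((q))`.
* `finrank_le_of_indep` : a family of `n ≥ [F : L(t)]` elements of `Rw` whose reductions are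
  independent over `k(t~)` gives `[F : L(t)] ≤ [Fres : k(t~)]` (finiteness of `Fres / k(t~)`
  is automatic, helper12's `finrank_residue_le`).
* `finrank_le_of_baseChange` : the same from a family over a SMALLER pair
  `(O₀ → κ₀) ⟶ (A → k)`, reductions independent over `κ₀(s~)` (helper33's base change).
-/
import Fermat.Agent.GJ.J1.Val.GaussRedData
import Fermat.Agent.GJ.AuxLevel.DegBaseChange
import Fermat.Agent.GJ.S37.ResidueDegree

set_option autoImplicit false

noncomputable section

namespace Fermat.Agent.GJ.J1.Val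

open HahnSeries ModularCurve IntermediateField

section Generic

variable {L : Type*} [Field L] {A : ValuationSubring L}
  {F : IntermediateField L (LaurentSeries L)} {hGF : HasGaussFrac A F}

/-- the defining relation of the reduction, for ARBITRARY numerator and denominator in `A((q))` -/
theorem redL_mul_rd_of_frac {x : Rw A F hGF} {g h : LaurentSeries A}
    (hx : ((x : F) : LaurentSeries L) * emb A h = emb A g) :
    redL A F hGF x * rd A h = rd A g := by
  obtain ⟨a, b, hab⟩ := x.2
  have h1 : emb A (a * h) = emb A (b * g) := by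
    rw [map_mul, map_mul, ← hab.2.2.2, ← hx]
    ring
  have h2 : a * h = b * g := emb_injective A h1
  have h3 : rd A a * rd A h = rd A b * rd A g := by
    rw [← map_mul, ← map_mul, h2]
  rw [redL_eq hab, div_mul_eq_mul_div, h3, mul_div_cancel_left₀ _ hab.2.2.1]

/-- `x ∈ F` with `x · h = g`, `g, h ∈ A((q))` arbitrary, `h~ ≠ 0` lies in the Gauss valuation
ring. -/
theorem mem_Rw_of_frac {x : F} {g h : LaurentSeries A} (hh : rd A h ≠ 0)
    (hx : (x : LaurentSeries L) * emb A h = emb A g) : x ∈ Rw A F hGF := by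
  by_cases hx0 : x = 0
  · rw [hx0]; exact zero_mem _
  rcases (Rw A F hGF).mem_or_inv_mem x with hmem | hmem
  · exact hmem
  have hxL : (x : LaurentSeries L) ≠ 0 := fun h0 => hx0 (Subtype.ext h0)
  obtain ⟨a, b, hab⟩ := hmem
  have hab4 : (x : LaurentSeries L)⁻¹ * emb A b = emb A a := by
    have := hab.2.2.2
    simpa using this
  have h1 : emb A (b * h) = emb A (a * g) := by
    rw [map_mul, map_mul, ← hab4, ← hx]
    field_simp
  have h2 : b * h = a * g := emb_injective A h1
  have h3 : rd A b * rd A h = rd A a * rd A g := by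
    rw [← map_mul, ← map_mul, h2]
  have ha0 : rd A a ≠ 0 := by
    intro h0
    rw [h0, zero_mul] at h3
    exact mul_ne_zero hab.2.2.1 hh h3
  have hred : redL A F hGF ⟨x⁻¹, ⟨a, b, hab⟩⟩ ≠ 0 := by
    rw [redL_eq (x := ⟨x⁻¹, ⟨a, b, hab⟩⟩) hab]
    exact div_ne_zero ha0 hab.2.2.1
  have := inv_mem_of_redL_ne_zero hred
  simpa using this

variable (A F hGF)

/-- linear independence over `k(τ)` inside `Fres` may be tested in `k((q))` -/
theorem linearIndependent_Fres {ι : Type*} (τ : Fres A F hGF) (y : ι → Fres A F hGF)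
    (h : LinearIndependent
      (IntermediateField.adjoin (IsLocalRing.ResidueField A)
        {(τ : LaurentSeries (IsLocalRing.ResidueField A))})
      (fun i => (y i : LaurentSeries (IsLocalRing.ResidueField A)))) :
    LinearIndependent (IntermediateField.adjoin (IsLocalRing.ResidueField A) {τ}) y := by
  classical
  rw [linearIndependent_iff'] at h ⊢
  intro s g hsum i hi
  have hmap : (IntermediateField.adjoin (IsLocalRing.ResidueField A) {τ}).map
      (Fres A F hGF).val = IntermediateField.adjoin (IsLocalRing.ResidueField A)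
        {(τ : LaurentSeries (IsLocalRing.ResidueField A))} := by
    rw [IntermediateField.adjoin_map, Set.image_singleton]
    rfl
  have hmem : ∀ j, (((g j : IntermediateField.adjoin (IsLocalRing.ResidueField A) {τ}) :
      Fres A F hGF) : LaurentSeries (IsLocalRing.ResidueField A)) ∈
      IntermediateField.adjoin (IsLocalRing.ResidueField A)
        {(τ : LaurentSeries (IsLocalRing.ResidueField A))} := by
    intro j
    rw [← hmap]
    exact ⟨(g j : Fres A F hGF), (g j).2, rfl⟩
  have h1 := h s (fun j => ⟨_, hmem j⟩) (by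
    have h2 := congrArg (fun z : Fres A F hGF =>
      (z : LaurentSeries (IsLocalRing.ResidueField A))) hsum
    have h0 : (((0 : Fres A F hGF)) : LaurentSeries (IsLocalRing.ResidueField A)) = 0 := rfl
    rw [h0] at h2
    rw [← h2]
    push_cast
    exact Finset.sum_congr rfl fun j _ => rfl) i hi
  have h3 : (((g i : IntermediateField.adjoin (IsLocalRing.ResidueField A) {τ}) :
      Fres A F hGF) : LaurentSeries (IsLocalRing.ResidueField A)) = 0 :=
    congrArg (fun z : IntermediateField.adjoin (IsLocalRing.ResidueField A)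
        {(τ : LaurentSeries (IsLocalRing.ResidueField A))} =>
      (z : LaurentSeries (IsLocalRing.ResidueField A))) h1
  exact Subtype.ext (Subtype.ext h3)

/-- **Degree preservation from an independent family.**  If `n ≥ [F : L(t)]` elements of `Rw` have
reductions linearly independent over `k(t~)` (tested in `k((q))`), then
`[F : L(t)] ≤ [Fres : k(t~)]`. -/
theorem finrank_le_of_indep (t : F) (ht : t ∈ Rw A F hGF)
    (htr : Transcendental (IsLocalRing.ResidueField A) ((redData A F hGF).red ⟨t, ht⟩))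
    [FiniteDimensional L⟮t⟯ F] {n : ℕ} (hn : Module.finrank L⟮t⟯ F ≤ n)
    (y : Fin n → Rw A F hGF)
    (hli : LinearIndependent
      (IntermediateField.adjoin (IsLocalRing.ResidueField A) {redL A F hGF ⟨t, ht⟩})
      (fun i => redL A F hGF (y i))) :
    Module.finrank L⟮t⟯ F ≤
      Module.finrank (IntermediateField.adjoin (IsLocalRing.ResidueField A)
        {(redData A F hGF).red ⟨t, ht⟩}) (Fres A F hGF) := by
  obtain ⟨hfd, -⟩ := Fermat.Agent.GJ.S37.ResDeg.finrank_residue_le (redData A F hGF).A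
    (redData A F hGF).Rw (fun a ha => ((redData A F hGF).mem_A_iff a).1 ha)
    (redData A F hGF).red (redData A F hGF).res (redData A F hGF).red_algebraMap
    (redData A F hGF).red_surjective ⟨t, ht⟩ htr
  have hli' : LinearIndependent
      (IntermediateField.adjoin (IsLocalRing.ResidueField A) {(redData A F hGF).red ⟨t, ht⟩})
      (fun i => (redData A F hGF).red (y i)) :=
    linearIndependent_Fres A F hGF _ _ hli
  have := hli'.fintype_card_le_finrank
  rw [Fintype.card_fin] at this
  exact hn.trans this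

/-- **Degree preservation by base change.**  `(O₀ → κ₀) ⟶ (A → k)` a morphism of
"ring with residue map" pairs, `s₀ ∈ O₀((q))` the chart, `xᵢ ∈ F` with `xᵢ · hᵢ = gᵢ`,
`gᵢ, hᵢ ∈ O₀((q))`, `hᵢ~ ≠ 0`, `rᵢ = gᵢ~ / hᵢ~ ∈ κ₀((q))` linearly independent over `κ₀(s₀~)`,
and `n ≥ [F : L(t)]`: then `[F : L(t)] ≤ [Fres : k(t~)]`. -/
theorem finrank_le_of_baseChange {O₀ κ₀ : Type*} [CommRing O₀] [Field κ₀]
    (ρ₀ : O₀ →+* κ₀) (f : O₀ →+* A) (φ : κ₀ →+* IsLocalRing.ResidueField A)
    (hcomp : φ.comp ρ₀ = (IsLocalRing.residue A).comp f)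
    (s₀ : LaurentSeries O₀) (hs₀ : emb A (coeffMap f s₀) ∈ F)
    (htr : Transcendental (IsLocalRing.ResidueField A) (coeffMap φ (coeffMap ρ₀ s₀)))
    [FiniteDimensional L⟮(⟨emb A (coeffMap f s₀), hs₀⟩ : F)⟯ F] {n : ℕ}
    (hn : Module.finrank L⟮(⟨emb A (coeffMap f s₀), hs₀⟩ : F)⟯ F ≤ n)
    (x : Fin n → F) (g h : Fin n → LaurentSeries O₀) (r : Fin n → LaurentSeries κ₀)
    (hfrac : ∀ i, (x i : LaurentSeries L) * emb A (coeffMap f (h i)) = emb A (coeffMap f (g i)))
    (hh : ∀ i, coeffMap ρ₀ (h i) ≠ 0)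
    (hr : ∀ i, r i * coeffMap ρ₀ (h i) = coeffMap ρ₀ (g i))
    (hli : LinearIndependent (IntermediateField.adjoin κ₀ {coeffMap ρ₀ s₀}) r) :
    Module.finrank L⟮(⟨emb A (coeffMap f s₀), hs₀⟩ : F)⟯ F ≤
      Module.finrank (IntermediateField.adjoin (IsLocalRing.ResidueField A)
        {(redData A F hGF).red ⟨⟨emb A (coeffMap f s₀), hs₀⟩, int_mem_Rw (hGF := hGF) hs₀⟩})
        (Fres A F hGF) := by
  have hrdf : ∀ u : LaurentSeries O₀, rd A (coeffMap f u) = coeffMap φ (coeffMap ρ₀ u) := by
    intro u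
    rw [rd, coeffMap_coeffMap, coeffMap_coeffMap, hcomp]
  have hφinj : Function.Injective (coeffMap φ) := by
    intro a b hab
    ext m
    have := congrArg (fun z : LaurentSeries (IsLocalRing.ResidueField A) => z.coeff m) hab
    simp only [coeffMap_coeff] at this
    exact φ.injective this
  have hh' : ∀ i, rd A (coeffMap f (h i)) ≠ 0 := by
    intro i h0
    rw [hrdf] at h0
    exact hh i (hφinj (by rw [h0, map_zero]))
  have hmem : ∀ i, x i ∈ Rw A F hGF := fun i => mem_Rw_of_frac (hh' i) (hfrac i)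
  have hred : ∀ i, redL A F hGF ⟨x i, hmem i⟩ = coeffMap φ (r i) := by
    intro i
    have h1 := redL_mul_rd_of_frac (x := ⟨x i, hmem i⟩) (hfrac i)
    rw [hrdf, hrdf, ← hr i, map_mul] at h1
    exact mul_right_cancel₀ (by rw [← hrdf]; exact hh' i) h1
  have hredt : redL A F hGF ⟨⟨emb A (coeffMap f s₀), hs₀⟩, int_mem_Rw (hGF := hGF) hs₀⟩ =
      coeffMap φ (coeffMap ρ₀ s₀) := by
    rw [redL_int, hrdf]
  have htr' : Transcendental (IsLocalRing.ResidueField A)
      ((redData A F hGF).red ⟨⟨emb A (coeffMap f s₀), hs₀⟩, int_mem_Rw (hGF := hGF) hs₀⟩) := by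
    apply Fres.transcendental_of_coe
    have h1 : (((redData A F hGF).red ⟨⟨emb A (coeffMap f s₀), hs₀⟩, int_mem_Rw (hGF := hGF) hs₀⟩ :
        Fres A F hGF) : LaurentSeries (IsLocalRing.ResidueField A)) =
        redL A F hGF ⟨⟨emb A (coeffMap f s₀), hs₀⟩, int_mem_Rw (hGF := hGF) hs₀⟩ := rfl
    rw [h1, hredt]
    exact htr
  refine finrank_le_of_indep A F hGF _ (int_mem_Rw (hGF := hGF) hs₀) htr' hn (fun i => ⟨x i, hmem i⟩) ?_
  letI : Algebra κ₀ (IsLocalRing.ResidueField A) := φ.toAlgebra
  have hbc := Fermat.Agent.GJ.AuxLevel.Deg.linearIndependent_coeffMap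
    (K := IsLocalRing.ResidueField A) (coeffMap ρ₀ s₀) r hli
  have hφ : algebraMap κ₀ (IsLocalRing.ResidueField A) = φ := rfl
  rw [hφ] at hbc
  rw [hredt]
  simp only [hred]
  exact hbc

end Generic

end Fermat.Agent.GJ.J1.Val
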