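/-
GATE-J / J1 (C3) (helper45): DEGREE PRESERVATION at the chart `j` for the concrete reduction datum
`redDataBar N A` (every level `N`, every prime `ℓ ∤ N`, every valuation subring `A` of `ℚ̄` over `ℓ`):

  `[ℚ̄(X₀(N)) : ℚ̄(j)] ≤ [FresBar N A : k(j~)]`

= the hypothesis `hdeg` of `RedData.orth_of_finrank_le` (helper90), `huniq_of_finrank_le` (helper18),
`DegChart.finrank_le_two/three` (helper83) and of Layer B (`KummerRedData`).
Composition of helper28's `GaussDeg.exists_basis_field` (M-DEG) with `Val.finrank_le_of_indep`.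
-/
import Fermat.Agent.GJ.J1.Val.DegExport
import Fermat.Agent.GJ.J1.Gauss.DegPres
import Fermat.Agent.GJ.J1.Haupt.ChartRed
import Fermat.Agent.GJ.J1.Val.CharP

set_option autoImplicit false

noncomputable section

namespace Fermat.Agent.GJ.J1.Val

open HahnSeries ModularCurve IntermediateField
open Fermat.Agent.S24 Fermat.Agent.S24_helper62 Fermat.Agent.GJ.GaussDeg

variable (N : ℕ) [NeZero N] {ℓ : ℕ} [Fact ℓ.Prime]
  (A : ValuationSubring (AlgebraicClosure ℚ))

/-- helper28's `jBar` is the `jF` of S24 -/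
theorem jBar_eq_jF : jBar N (L := AlgebraicClosure ℚ) = jF N := by
  apply Subtype.ext
  rw [coe_jF]
  exact jqModC_eq_coeffEmb

/-- `F_N` is finite over `ℚ̄(j)` (T24, M9) -/
theorem finiteDimensional_jF : FiniteDimensional (AlgebraicClosure ℚ)⟮jF N⟯ (FN N) :=
  (m9 N).2.1

/-- **(C3) Degree preservation at `j`**: `[F_N : ℚ̄(j)] ≤ [FresBar N A : k(j~)]` for `ℓ ∤ N` and
`A` over `ℓ`; any membership proof `ht`. -/
theorem finrank_jF_le (hℓN : ¬ ℓ ∣ N) (hA : A.LiesOverPrime ℓ)
    (ht : jF N ∈ (redDataBar N A).Rw) :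
    Module.finrank (AlgebraicClosure ℚ)⟮jF N⟯ (FN N) ≤
      Module.finrank (IsLocalRing.ResidueField A)⟮(redDataBar N A).red ⟨jF N, ht⟩⟯
        (FresBar N A) := by
  have hπ : IsLocalRing.residue A ((ℓ : ℕ) : A) = 0 := by
    rw [map_natCast]
    exact residue_natCast_eq_zero A hA
  obtain ⟨n, y, z, hz, -, -, hn, -, -, -, hli⟩ :=
    exists_basis_field N ℓ A (IsLocalRing.residue A) hℓN hA hπ
  rw [jBar_eq_jF] at hn
  haveI := finiteDimensional_jF N
  have htr : Transcendental (IsLocalRing.ResidueField A) ((redDataBar N A).red ⟨jF N, ht⟩) := by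
    apply Fres.transcendental_of_coe
    rw [Fermat.Agent.GJ.J1.Haupt.coe_red_jF]
    exact transcendental_jqModC _
  refine finrank_le_of_indep A (modularFunctionFieldBar N) (hasGaussFrac_bar N A) (jF N) ht htr
    hn.le (fun i => ⟨⟨emb A (z i), hz i⟩, int_mem_Rw (hGF := hasGaussFrac_bar N A) (hz i)⟩) ?_
  have h1 : redL A (modularFunctionFieldBar N) (hasGaussFrac_bar N A) ⟨jF N, ht⟩ =
      jqModC (IsLocalRing.ResidueField A) := Fermat.Agent.GJ.J1.Haupt.coe_red_jF N A
  rw [h1]
  have h2 : ∀ i, redL A (modularFunctionFieldBar N) (hasGaussFrac_bar N A)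
      ⟨⟨emb A (z i), hz i⟩, int_mem_Rw (hGF := hasGaussFrac_bar N A) (hz i)⟩ =
      coeffMap (IsLocalRing.residue A) (z i) := fun i => redL_int (hz i)
  simp only [h2]
  exact hli

end Fermat.Agent.GJ.J1.Val
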