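import Mathlib
import Fermat.Agent.GJ.J1.IntegralityRedAdapter

/-!
# GATE-J / J1 / VAL (b) (helper54): `Huniq` from degree preservation

`R : RedData K F k Ft`, `s` a Gauss chart, `st := red s`.  If finitely many `b i ∈ Rw` span `F` over
`K(s)` and their reductions are linearly independent over `k(st)` (= degree preservation, M-DEG),
then

* `red` maps `Rw ∩ K(s)` into `k(st)` (`red_mem_adjoin`);
* the `b i` are ORTHONORMAL over `K(s)`: `∑ c i • b i ∈ Rw → ∀ i, c i ∈ Rw ∩ K(s)`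
  (`coeff_mem_of_sum_mem`), in particular `K(s)`-linearly independent;
* `Rw` is the `(Rw ∩ K(s))`-span of the `b i`, hence **`IntRed.Huniq R K⟮s⟯`**: every element of
  `Rw` is integral over `Rw ∩ K(s)` (`huniq_of_chart`), the hypothesis of helper18's
  `IntRed.regFin_red` / `redRegFin_of_huniq`.
-/

set_option autoImplicit false

namespace Fermat.Agent.GJ.J1.ValUniq

open Polynomial IntermediateField Fermat.Agent.GJ.J1.IntRed

variable {K F k Ft : Type*} [Field K] [Field F] [Algebra K F] [Field k] [Field Ft] [Algebra k Ft]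
variable {R : RedData K F k Ft} {s : F}

/-- every element of `K(s) ∩ Rw` is `p(s) / q(s)` with `p, q ∈ A[X]` and `q` of nonzero
reduction. -/
theorem exists_frac (hs : R.IsGaussChart s) (c : K⟮s⟯) (hc : (c : F) ∈ R.Rw) :
    ∃ p q : R.A[X], q.map R.res ≠ 0 ∧
      (c : F) * aeval s (q.map R.A.subtype) = aeval s (p.map R.A.subtype) := by
  obtain ⟨r, t, hrt⟩ := (mem_adjoin_simple_iff K (c : F)).1 c.2
  by_cases ht : aeval s t = 0
  · refine ⟨0, 1, ?_, ?_⟩
    · rw [Polynomial.map_one]; exact one_ne_zero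
    · rw [hrt, ht, div_zero, zero_mul, Polynomial.map_zero, map_zero]
  have ht0 : t ≠ 0 := by
    rintro rfl
    exact ht (map_zero _)
  obtain ⟨i₀, q, hc₀, -, hq, hq1⟩ := exists_scaling R.A ht0
  have hqw : aeval s (q.map R.A.subtype) ∈ R.Rw := aeval_mem_Rw hs.1 q
  have hkey : (c : F) * aeval s (q.map R.A.subtype) = aeval s (C (t.coeff i₀)⁻¹ * r) := by
    rw [hq, hrt, map_mul, map_mul, aeval_C]
    field_simp
  have hmem : aeval s (C (t.coeff i₀)⁻¹ * r) ∈ R.Rw := by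
    rw [← hkey]; exact R.Rw.mul_mem _ _ hc hqw
  obtain ⟨p, hp⟩ := exists_lift_of_aeval_mem hs _ hmem
  exact ⟨p, q, map_res_ne_zero_of_coeff_eq_one q hq1, by rw [hkey, hp]⟩

/-- **the residue field of the Gauss valuation of `K(s)` is `k(red s)`**: the reduction of an
element of `K(s) ∩ Rw` lies in `k(red s)`. -/
theorem red_mem_adjoin (hs : R.IsGaussChart s) (c : K⟮s⟯) (hc : (c : F) ∈ R.Rw) :
    R.red ⟨(c : F), hc⟩ ∈ k⟮R.red ⟨s, hs.1⟩⟯ := by
  obtain ⟨p, q, hq, hpq⟩ := exists_frac hs c hc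
  have h1 : R.red ⟨(c : F), hc⟩ * R.red (evalA hs.1 q) = R.red (evalA hs.1 p) := by
    rw [← map_mul]
    congr 1
    apply Subtype.ext
    show (c : F) * ((evalA hs.1 q : R.Rw) : F) = ((evalA hs.1 p : R.Rw) : F)
    rw [coe_evalA, coe_evalA, hpq]
  have h2 : R.red (evalA hs.1 q) ≠ 0 := red_evalA_ne_zero hs q hq
  rw [eq_div_of_mul_eq h2 h1, red_evalA, red_evalA]
  exact div_mem (algebra_adjoin_le_adjoin k _ (Polynomial.aeval_mem_adjoin_singleton k _))
    (algebra_adjoin_le_adjoin k _ (Polynomial.aeval_mem_adjoin_singleton k _))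

/-- an element of `Rw` whose inverse is not in `Rw` reduces to zero -/
theorem red_eq_zero_of_inv_notMem {x : F} (hx : x ∈ R.Rw) (hinv : x⁻¹ ∉ R.Rw) :
    R.red ⟨x, hx⟩ = 0 := by
  rw [R.red_eq_zero_iff, IsLocalRing.mem_maximalIdeal, mem_nonunits_iff]
  intro hu
  obtain ⟨y, hy⟩ := isUnit_iff_exists_inv.1 hu
  have h1 : x * (y : F) = 1 := by
    have := congrArg (fun z : R.Rw => (z : F)) hy
    simpa using this
  have hy' : (y : F) = x⁻¹ := eq_inv_of_mul_eq_one_right h1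
  exact hinv (hy' ▸ y.2)

section Ortho

variable {ι : Type*} [Fintype ι]

/-- **Core lemma**: if the reductions of the `b i ∈ Rw` are linearly independent over `k(red s)`
and the `a i ∈ K(s) ∩ Rw` have `a i₀ = 1`, then `∑ a i • b i` has NONZERO reduction. -/
theorem red_sum_ne_zero (hs : R.IsGaussChart s) (b : ι → F) (hbw : ∀ i, b i ∈ R.Rw)
    (hind : LinearIndependent k⟮R.red ⟨s, hs.1⟩⟯ fun i => R.red ⟨b i, hbw i⟩)
    (a : ι → K⟮s⟯) (haw : ∀ i, ((a i : K⟮s⟯) : F) ∈ R.Rw) (i₀ : ι) (hi₀ : a i₀ = 1)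
    (hsum : ∑ i, a i • b i ∈ R.Rw) : R.red ⟨∑ i, a i • b i, hsum⟩ ≠ 0 := by
  intro h0
  have hX : (⟨∑ i, a i • b i, hsum⟩ : R.Rw)
      = ∑ i, (⟨((a i : K⟮s⟯) : F), haw i⟩ : R.Rw) * ⟨b i, hbw i⟩ := by
    apply Subtype.ext
    rw [AddSubmonoidClass.coe_finsetSum]
    refine Finset.sum_congr rfl fun i _ => ?_
    rw [Algebra.smul_def]
    rfl
  rw [hX, map_sum] at h0
  have h1 : ∑ i, (⟨R.red ⟨((a i : K⟮s⟯) : F), haw i⟩, red_mem_adjoin hs (a i) (haw i)⟩ :
      k⟮R.red ⟨s, hs.1⟩⟯) • R.red ⟨b i, hbw i⟩ = 0 := by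
    rw [← h0]
    refine Finset.sum_congr rfl fun i _ => ?_
    rw [map_mul, Algebra.smul_def]
    rfl
  have h2 := Fintype.linearIndependent_iff.1 hind _ h1 i₀
  have h3 : R.red ⟨((a i₀ : K⟮s⟯) : F), haw i₀⟩ = 0 := congrArg Subtype.val h2
  have h4 : (⟨((a i₀ : K⟮s⟯) : F), haw i₀⟩ : R.Rw) = 1 := by
    apply Subtype.ext
    show ((a i₀ : K⟮s⟯) : F) = 1
    rw [hi₀]
    rfl
  rw [h4, map_one] at h3
  exact one_ne_zero h3

/-- **orthonormality over `K(s)`**: if the reductions of the `b i ∈ Rw` are linearly independent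
over `k(red s)`, then `∑ c i • b i ∈ Rw` (`c i ∈ K(s)`) forces all `c i ∈ Rw`. -/
theorem coeff_mem_of_sum_mem (hs : R.IsGaussChart s) (b : ι → F) (hbw : ∀ i, b i ∈ R.Rw)
    (hind : LinearIndependent k⟮R.red ⟨s, hs.1⟩⟯ fun i => R.red ⟨b i, hbw i⟩)
    (c : ι → K⟮s⟯) (hsum : ∑ i, c i • b i ∈ R.Rw) : ∀ i, ((c i : K⟮s⟯) : F) ∈ R.Rw := by
  classical
  by_contra hcon
  push Not at hcon
  obtain ⟨j, hj⟩ := hcon
  have : Nonempty ι := ⟨j⟩
  obtain ⟨i₀, -, hmax⟩ := Finset.exists_max_image Finset.univ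
    (fun i => (Ov R s).valuation (c i)) Finset.univ_nonempty
  have hi₀ : 1 < (Ov R s).valuation (c i₀) := by
    have h1 : ¬ (Ov R s).valuation (c j) ≤ 1 := by
      rw [ValuationSubring.valuation_le_one_iff]; exact hj
    exact lt_of_lt_of_le (not_le.1 h1) (hmax j (Finset.mem_univ j))
  have hc0 : c i₀ ≠ 0 := by
    intro h0; rw [h0, map_zero] at hi₀; exact not_lt.2 zero_le hi₀
  have hci₀ : ((c i₀ : K⟮s⟯) : F) ∉ R.Rw := by
    intro hmem
    have : (Ov R s).valuation (c i₀) ≤ 1 :=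
      (ValuationSubring.valuation_le_one_iff _ _).2 hmem
    exact not_lt.2 this hi₀
  set a : ι → K⟮s⟯ := fun i => c i / c i₀ with ha_def
  have ha : ∀ i, ((a i : K⟮s⟯) : F) ∈ R.Rw := by
    intro i
    show a i ∈ Ov R s
    rw [← ValuationSubring.valuation_le_one_iff, ha_def, map_div₀]
    exact div_le_one_of_le₀ (hmax i (Finset.mem_univ i)) zero_le
  have hinv : (((c i₀)⁻¹ : K⟮s⟯) : F) ∈ R.Rw := by
    show (c i₀)⁻¹ ∈ Ov R s
    rw [← ValuationSubring.valuation_le_one_iff, map_inv₀]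
    exact inv_le_one_of_one_le₀ hi₀.le
  have hsum' : ∑ i, a i • b i = (((c i₀)⁻¹ : K⟮s⟯) : F) * ∑ i, c i • b i := by
    rw [Finset.mul_sum]
    refine Finset.sum_congr rfl fun i _ => ?_
    rw [ha_def, Algebra.smul_def, Algebra.smul_def, ← mul_assoc]
    congr 1
    show ((c i / c i₀ : K⟮s⟯) : F) = (((c i₀)⁻¹ : K⟮s⟯) : F) * ((c i : K⟮s⟯) : F)
    rw [← MulMemClass.coe_mul, div_eq_inv_mul]
  have hmem : ∑ i, a i • b i ∈ R.Rw := by
    rw [hsum']; exact R.Rw.mul_mem _ _ hinv hsum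
  have hne := red_sum_ne_zero hs b hbw hind a ha i₀ (by rw [ha_def]; exact div_self hc0) hmem
  apply hne
  have hX : (⟨∑ i, a i • b i, hmem⟩ : R.Rw)
      = ⟨(((c i₀)⁻¹ : K⟮s⟯) : F), hinv⟩ * ⟨∑ i, c i • b i, hsum⟩ := Subtype.ext hsum'
  rw [hX, map_mul, red_eq_zero_of_inv_notMem hinv (by
    intro h
    apply hci₀
    have : ((((c i₀)⁻¹ : K⟮s⟯) : F))⁻¹ = ((c i₀ : K⟮s⟯) : F) := by
      rw [IntermediateField.coe_inv, inv_inv]
    rwa [this] at h), zero_mul]

/-- the `b i` are linearly independent over `K(s)`. -/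
theorem linearIndependent_of_red (hs : R.IsGaussChart s) (b : ι → F) (hbw : ∀ i, b i ∈ R.Rw)
    (hind : LinearIndependent k⟮R.red ⟨s, hs.1⟩⟯ fun i => R.red ⟨b i, hbw i⟩) :
    LinearIndependent K⟮s⟯ b := by
  classical
  rw [Fintype.linearIndependent_iff]
  intro c hsum
  by_contra hcon
  push Not at hcon
  obtain ⟨j, hj⟩ := hcon
  have : Nonempty ι := ⟨j⟩
  obtain ⟨i₀, -, hmax⟩ := Finset.exists_max_image Finset.univ
    (fun i => (Ov R s).valuation (c i)) Finset.univ_nonempty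
  have hc0 : c i₀ ≠ 0 := by
    intro h0
    have := hmax j (Finset.mem_univ j)
    rw [h0, map_zero, le_zero_iff, map_eq_zero] at this
    exact hj this
  set a : ι → K⟮s⟯ := fun i => c i / c i₀ with ha_def
  have ha : ∀ i, ((a i : K⟮s⟯) : F) ∈ R.Rw := by
    intro i
    show a i ∈ Ov R s
    rw [← ValuationSubring.valuation_le_one_iff, ha_def, map_div₀]
    exact div_le_one_of_le₀ (hmax i (Finset.mem_univ i)) zero_le
  have hsum' : ∑ i, a i • b i = 0 := by
    have : ∑ i, a i • b i = (c i₀)⁻¹ • ∑ i, c i • b i := by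
      rw [Finset.smul_sum]
      refine Finset.sum_congr rfl fun i _ => ?_
      rw [smul_smul, ha_def]; congr 1; field_simp
    rw [this, hsum, smul_zero]
  have hmem : ∑ i, a i • b i ∈ R.Rw := by rw [hsum']; exact zero_mem _
  have hne := red_sum_ne_zero hs b hbw hind a ha i₀ (by rw [ha_def]; exact div_self hc0) hmem
  apply hne
  have : (⟨∑ i, a i • b i, hmem⟩ : R.Rw) = 0 := Subtype.ext hsum'
  rw [this, map_zero]

/-- **`Huniq` from degree preservation** (spanning form): finitely many `b i ∈ Rw` spanning `F`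
over `K(s)` whose reductions are linearly independent over `k(red s)` ⟹ every element of `Rw` is
integral over `Rw ∩ K(s)` (indeed `Rw = ⊕ (Rw ∩ K(s)) b i`). -/
theorem huniq_of_chart (hs : R.IsGaussChart s) (b : ι → F) (hbw : ∀ i, b i ∈ R.Rw)
    (hind : LinearIndependent k⟮R.red ⟨s, hs.1⟩⟯ fun i => R.red ⟨b i, hbw i⟩)
    (hspan : Submodule.span K⟮s⟯ (Set.range b) = ⊤) : Huniq R K⟮s⟯ := by
  intro x hx
  let S : Subalgebra (Ov R s) F :=
    { R.Rw.toSubring with algebraMap_mem' := fun c => c.2 }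
  have hS : Subalgebra.toSubmodule S = Submodule.span (Ov R s) (Set.range b) := by
    apply le_antisymm
    · intro y hy
      have hy' : y ∈ R.Rw := hy
      have hy1 : y ∈ Submodule.span K⟮s⟯ (Set.range b) := by rw [hspan]; trivial
      obtain ⟨c, hc⟩ := (Submodule.mem_span_range_iff_exists_fun K⟮s⟯).1 hy1
      have hcw := coeff_mem_of_sum_mem hs b hbw hind c (by rw [hc]; exact hy')
      rw [← hc]
      refine Submodule.sum_mem _ fun i _ => ?_
      have : c i • b i = (⟨c i, hcw i⟩ : Ov R s) • b i := rfl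
      rw [this]
      exact Submodule.smul_mem _ _ (Submodule.subset_span ⟨i, rfl⟩)
    · rw [Submodule.span_le]
      rintro _ ⟨i, rfl⟩
      exact hbw i
  have hfg : (Subalgebra.toSubmodule S).FG := by
    rw [hS]; exact Submodule.fg_span (Set.finite_range b)
  exact IsIntegral.of_mem_of_fg S hfg x hx

/-- **`Huniq` from degree preservation** (cardinality form): `[F : K(s)]` elements of `Rw` whose
reductions are linearly independent over `k(red s)`. -/
theorem huniq_of_chart_card [FiniteDimensional K⟮s⟯ F] (hs : R.IsGaussChart s) (b : ι → F)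
    (hbw : ∀ i, b i ∈ R.Rw)
    (hind : LinearIndependent k⟮R.red ⟨s, hs.1⟩⟯ fun i => R.red ⟨b i, hbw i⟩)
    (hcard : Fintype.card ι = Module.finrank K⟮s⟯ F) : Huniq R K⟮s⟯ :=
  huniq_of_chart hs b hbw hind
    ((linearIndependent_of_red hs b hbw hind).span_eq_top_of_card_eq_finrank' hcard)

open scoped IntermediateField.algebraAdjoinAdjoin in
/-- the same with independence over the polynomial ring `k[red s]` (the shape of helper90's
`Ortho.orth_of_chart`). -/
theorem huniq_of_chart' (hs : R.IsGaussChart s) (b : ι → F) (hbw : ∀ i, b i ∈ R.Rw)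
    (hind : LinearIndependent (Algebra.adjoin k {R.red ⟨s, hs.1⟩}) fun i => R.red ⟨b i, hbw i⟩)
    (hspan : Submodule.span K⟮s⟯ (Set.range b) = ⊤) : Huniq R K⟮s⟯ :=
  huniq_of_chart hs b hbw
    ((LinearIndependent.iff_fractionRing (Algebra.adjoin k {R.red ⟨s, hs.1⟩})
      k⟮R.red ⟨s, hs.1⟩⟯).1 hind) hspan

end Ortho

end Fermat.Agent.GJ.J1.ValUniq
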