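/-
GATE-J / J1 Layer C, adapter (i) (helper45): from the Kummer statement in `RedData` language for
`redDataBar N A` (the conclusion of `kummer_redData_final` instantiated at `R := redDataBar N A`)
to the clause-free junction `S18.Front.K18s A (residue A) N m`.
-/
import Fermat.Agent.GJ.J1.Val.GaussRedData
import Fermat.Agent.GJ.S18.K18Strong

set_option autoImplicit false

noncomputable section

namespace Fermat.Agent.GJ.J1.Val

open HahnSeries ModularCurve IntermediateField AlgebraicCurve

variable (N : ℕ) [NeZero N] (A : ValuationSubring (AlgebraicClosure ℚ))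

/-- **`RedData`-form Kummer ⟹ `K18s`.**  `hK` is verbatim the conclusion of
`KummerRedData.kummer_redData_final` at `R := redDataBar N A` (universally quantified over
`a b`). -/
theorem k18s_of_kummer_rw {m : ℕ}
    (hK : ∀ {a b : ↥(modularFunctionFieldBar N)} (ha : a ∈ (redDataBar N A).Rw)
      (hb : b ∈ (redDataBar N A).Rw),
      (redDataBar N A).red ⟨a, ha⟩ = (redDataBar N A).red ⟨b, hb⟩ →
      (redDataBar N A).red ⟨a, ha⟩ ≠ 0 →
      (∀ P : Place (AlgebraicClosure ℚ) ↥(modularFunctionFieldBar N),
        (m : ℤ) ∣ P.ord a - P.ord b) →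
      ∃ v : ↥(modularFunctionFieldBar N), v ≠ 0 ∧ a = b * v ^ m) :
    Fermat.Agent.GJ.S18.Front.K18s A (IsLocalRing.residue A) N m := by
  intro a b ha hb hred hne hdiv
  have haR : (⟨emb A a, ha⟩ : ↥(modularFunctionFieldBar N)) ∈ (redDataBar N A).Rw :=
    int_mem_Rw (hGF := hasGaussFrac_bar N A) ha
  have hbR : (⟨emb A b, hb⟩ : ↥(modularFunctionFieldBar N)) ∈ (redDataBar N A).Rw :=
    int_mem_Rw (hGF := hasGaussFrac_bar N A) hb
  have hra : (((redDataBar N A).red ⟨⟨emb A a, ha⟩, haR⟩ : FresBar N A) :
      LaurentSeries (IsLocalRing.ResidueField A)) = rd A a :=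
    redL_int (hGF := hasGaussFrac_bar N A) ha
  have hrb : (((redDataBar N A).red ⟨⟨emb A b, hb⟩, hbR⟩ : FresBar N A) :
      LaurentSeries (IsLocalRing.ResidueField A)) = rd A b :=
    redL_int (hGF := hasGaussFrac_bar N A) hb
  refine hK haR hbR (Subtype.ext ?_) ?_ hdiv
  · rw [hra, hrb]
    exact hred
  · intro h0
    apply hne
    have := congrArg (fun z : FresBar N A =>
      (z : LaurentSeries (IsLocalRing.ResidueField A))) h0
    rw [hra] at this
    exact this

end Fermat.Agent.GJ.J1.Val
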